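import Fermat.Agent.KLB.Abs.Poly

/-!
# KL-B, concrete layer, node GAUSSLOC-ABS
-/

set_option autoImplicit false

namespace Fermat.Agent.KLB.Mod

open Polynomial

/-- Abstract form: a valuation subring `V` of `F ⊇ L = Frac A[x]` which contains `A[x]`, in which
the elements of `A[x]` not divisible by `π` are units and `π` is not a unit, restricts on `L` to the
localisation of `A[x]` at `π`. -/
theorem isLocSub_of_gauss {A L F : Type*} [CommRing A] [IsDomain A] [IsDiscreteValuationRing A]
    [Field L] [Field F] [Algebra A L] [Algebra L F] {x : L} (hx : IsCoord A x) {π : A}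
    (hπ : Irreducible π) (V : ValuationSubring F)
    (h1 : ∀ p : A[X], algebraMap L F (aeval x p) ∈ V)
    (h2 : ∀ p : A[X], ¬ C π ∣ p → (algebraMap L F (aeval x p))⁻¹ ∈ V)
    (h3 : (algebraMap L F (algebraMap A L π))⁻¹ ∉ V) :
    IsLocSub (ndvd (hx.prime hπ)) (V.toSubring.comap (algebraMap L F)) := by
  have hinj := aeval_injective_of_transcendental hx.trans
  have hne : ∀ p : A[X], p ≠ 0 → aeval x p ≠ 0 := fun p hp h0 =>
    hp (hinj (by rw [h0, map_zero]))
  have hCirr : Irreducible (C π : A[X]) := (Polynomial.prime_C_iff.mpr hπ.prime).irreducible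
  have hπL : algebraMap A L π ≠ 0 := by
    have := hne (C π) hCirr.ne_zero
    rwa [aeval_C] at this
  intro a
  rw [Subring.mem_comap]
  constructor
  · intro ha
    have ha' : algebraMap L F a ∈ V := ha
    obtain ⟨P, Q, hQ, rfl⟩ := hx.exists_div a
    have hQ0 : Q ≠ 0 := by
      rintro rfl
      exact hQ (map_zero _)
    rcases eq_or_ne P 0 with rfl | hP0
    · exact ⟨1, (ndvd (hx.prime hπ)).one_mem, 0, by simp⟩
    obtain ⟨i, P', hP', rfl⟩ := WfDvdMonoid.max_power_factor hP0 hCirr
    obtain ⟨k, Q', hQ', rfl⟩ := WfDvdMonoid.max_power_factor hQ0 hCirr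
    have hP'0 : aeval x P' ≠ 0 := hne P' (fun h => hP' (h ▸ dvd_zero _))
    have hQ'0 : aeval x Q' ≠ 0 := hne Q' (fun h => hQ' (h ▸ dvd_zero _))
    simp only [map_mul, map_pow, aeval_C] at ha' ⊢
    rcases le_or_gt k i with hki | hik
    · refine ⟨polyEquiv hx.trans Q', ?_, polyEquiv hx.trans (C π ^ (i - k) * P'), ?_⟩
      · rw [mem_ndvd, hx.dvd_iff]
        exact hQ'
      · show ((polyEquiv hx.trans Q' : Algebra.adjoin A {x}) : L) * _ =
          ((polyEquiv hx.trans (C π ^ (i - k) * P') : Algebra.adjoin A {x}) : L)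
        rw [coe_polyEquiv, coe_polyEquiv]
        simp only [map_mul, map_pow, aeval_C]
        obtain ⟨j, rfl⟩ := Nat.exists_eq_add_of_le hki
        rw [Nat.add_sub_cancel_left, pow_add]
        field_simp
    · exfalso
      apply h3
      obtain ⟨j, rfl⟩ := Nat.exists_eq_add_of_lt hik
      have e1 : (algebraMap A L π)⁻¹ =
          (algebraMap A L π ^ i * aeval x P' / (algebraMap A L π ^ (i + j + 1) * aeval x Q')) *
            aeval x (C π ^ j) * aeval x Q' * (aeval x P')⁻¹ := by
        simp only [map_pow, aeval_C]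
        rw [pow_succ, pow_add]
        field_simp
      rw [← map_inv₀, e1, map_mul, map_mul, map_mul, map_inv₀]
      refine V.mul_mem _ _ (V.mul_mem _ _ (V.mul_mem _ _ ?_ (h1 _)) (h1 _)) (h2 _ hP')
      simpa only [map_mul, map_pow, map_div₀] using ha'
  · rintro ⟨d, hd, s, hds⟩
    obtain ⟨p, rfl⟩ := (polyEquiv hx.trans).surjective d
    obtain ⟨r, rfl⟩ := (polyEquiv hx.trans).surjective s
    rw [mem_ndvd, hx.dvd_iff] at hd
    have hds' : aeval x p * a = aeval x r := by
      rw [← coe_polyEquiv hx.trans, ← coe_polyEquiv hx.trans]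
      exact hds
    have hp0 : aeval x p ≠ 0 := hne p (fun h => hd (h ▸ dvd_zero _))
    have ha : a = aeval x r * (aeval x p)⁻¹ := by
      rw [← hds']
      field_simp
    show algebraMap L F a ∈ V
    rw [ha, map_mul, map_inv₀]
    exact V.mul_mem _ _ (h1 r) (h2 p hd)

end Fermat.Agent.KLB.Mod
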