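import Mathlib

/-!
# KL-B, concrete layer, node CONST
A Laurent series which is integral over a valuation subring `A` of the coefficient field is a
constant belonging to `A`.
-/

set_option autoImplicit false

namespace Fermat.Agent.KLB.Mod

open Polynomial

/-- an integral (= algebraic) element of `k((q))` over `k` is a power series. -/
theorem const_exists_powerSeries {k : Type*} [Field k] {Y : LaurentSeries k}
    (hY : IsIntegral k Y) : ∃ f : PowerSeries k, (f : LaurentSeries k) = Y := by
  have h1 : IsIntegral (PowerSeries k) Y := by
    obtain ⟨p, hp, he⟩ := hY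
    refine ⟨p.map (algebraMap k (PowerSeries k)), hp.map _, ?_⟩
    rw [eval₂_map]
    have : (algebraMap (PowerSeries k) (LaurentSeries k)).comp (algebraMap k (PowerSeries k))
        = algebraMap k (LaurentSeries k) := by
      ext1 x
      rw [HahnSeries.algebraMap_apply', RingHom.comp_apply, LaurentSeries.coe_algebraMap]
    rw [this]
    exact he
  obtain ⟨f, hf⟩ := IsIntegrallyClosed.isIntegral_iff.mp h1
  exact ⟨f, hf⟩

/-- a Laurent series of nonzero order is transcendental over the constants. -/
theorem const_transcendental_of_order_ne_zero {k : Type*} [Field k] {Y : LaurentSeries k}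
    (hY : Y.order ≠ 0) : Transcendental k Y := by
  intro halg
  have hY0 : Y ≠ 0 := by
    rintro rfl
    exact hY HahnSeries.order_zero
  obtain ⟨f, hf⟩ := const_exists_powerSeries halg.isIntegral
  obtain ⟨g, hg⟩ := const_exists_powerSeries halg.inv.isIntegral
  have hfg : f * g = 1 := by
    apply HahnSeries.ofPowerSeries_injective (Γ := ℤ)
    rw [map_mul, map_one]
    change (f : LaurentSeries k) * (g : LaurentSeries k) = 1
    rw [hf, hg, mul_inv_cancel₀ hY0]
  have hc : PowerSeries.constantCoeff f ≠ 0 := by
    intro h0
    have := congrArg PowerSeries.constantCoeff hfg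
    rw [map_mul, h0, zero_mul, map_one] at this
    exact zero_ne_one this
  apply hY
  apply le_antisymm
  · apply HahnSeries.order_le_of_coeff_ne_zero
    rw [← hf, PowerSeries.coeff_coe]
    simpa using hc
  · by_contra hlt
    rw [not_le] at hlt
    apply (HahnSeries.coeff_order_eq_zero (x := Y)).not.mpr hY0
    subst hf
    rw [PowerSeries.coeff_coe, if_pos hlt]

theorem const_algebraMap_eq_single {R : Type*} [CommRing R] (c : R) :
    algebraMap R (LaurentSeries R) c = HahnSeries.single 0 c := by
  have h1 : algebraMap R (PowerSeries R) c = PowerSeries.C c := by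
    simp
  rw [HahnSeries.algebraMap_apply', h1, HahnSeries.ofPowerSeries_C]
  rfl

/-- a Laurent series which is integral over the constants is a constant. -/
theorem const_eq_algebraMap_coeff_zero {k : Type*} [Field k] {y : LaurentSeries k}
    (hy : IsIntegral k y) : y = algebraMap k (LaurentSeries k) (y.coeff 0) := by
  have hz : IsIntegral k (y - algebraMap k (LaurentSeries k) (y.coeff 0)) :=
    hy.sub isIntegral_algebraMap
  have hc0 : (y - algebraMap k (LaurentSeries k) (y.coeff 0)).coeff 0 = 0 := by
    rw [HahnSeries.coeff_sub, const_algebraMap_eq_single, HahnSeries.coeff_single_same, sub_self]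
  by_contra hne
  have hz0 : y - algebraMap k (LaurentSeries k) (y.coeff 0) ≠ 0 := sub_ne_zero.mpr hne
  have hord : (y - algebraMap k (LaurentSeries k) (y.coeff 0)).order ≠ 0 := by
    intro h0
    have := (HahnSeries.coeff_order_eq_zero
      (x := y - algebraMap k (LaurentSeries k) (y.coeff 0))).not.mpr hz0
    rw [h0] at this
    exact this hc0
  exact const_transcendental_of_order_ne_zero hord hz.isAlgebraic

theorem exists_eq_algebraMap_of_isIntegral {K : Type*} [Field K] (A : ValuationSubring K)
    (y : LaurentSeries K) (hy : (algebraMap K (LaurentSeries K)).comp A.subtype |>.IsIntegralElem y) :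
    ∃ a : A, y = algebraMap K (LaurentSeries K) a := by
  obtain ⟨p, hp, he⟩ := hy
  have hyK : IsIntegral K y := by
    refine ⟨p.map A.subtype, hp.map _, ?_⟩
    rw [eval₂_map]
    exact he
  have hyc := const_eq_algebraMap_coeff_zero hyK
  have hcint : IsIntegral A (y.coeff 0) := by
    refine ⟨p, hp, ?_⟩
    apply (algebraMap K (LaurentSeries K)).injective
    rw [map_zero]
    have h1 := Polynomial.hom_eval₂ p A.subtype (algebraMap K (LaurentSeries K)) (y.coeff 0)
    rw [← hyc, he] at h1
    exact h1
  obtain ⟨a, ha⟩ := (IsIntegrallyClosed.isIntegral_iff (R := A) (K := K)).mp hcint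
  refine ⟨a, ?_⟩
  rw [hyc]
  congr 1
  exact ha.symm

end Fermat.Agent.KLB.Mod
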