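import Fermat.Agent.KLB.Abs.Poly

/-!
# KL-B, concrete layer, node COORD
A transcendental element is a coordinate (`IsCoord`) of the rational function field it generates.
-/

set_option autoImplicit false

namespace Fermat.Agent.KLB.Mod

open Polynomial IntermediateField

/-- every element of `K⟮x⟯` is a quotient of polynomials in the generator -/
theorem coord_exists_div {K F : Type*} [Field K] [Field F] [Algebra K F] (x : F) (z : K⟮x⟯) :
    ∃ r s : K[X], z = aeval (AdjoinSimple.gen K x) r / aeval (AdjoinSimple.gen K x) s := by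
  obtain ⟨r, s, h⟩ := (mem_adjoin_simple_iff K (z : F)).mp z.2
  refine ⟨r, s, Subtype.ext ?_⟩
  have hc : ∀ p : K[X], ((aeval (AdjoinSimple.gen K x) p : K⟮x⟯) : F) = aeval x p := by
    intro p
    have := aeval_algHom_apply (K⟮x⟯.val) (AdjoinSimple.gen K x) p
    rw [IntermediateField.val_mk] at this
    exact this.symm
  rw [h, IntermediateField.coe_div, hc, hc]

/-- clearing denominators -/
theorem coord_exists_smul {K L : Type*} [Field K] [Field L] [Algebra K L] (A : ValuationSubring K)
    (y : L) (p : K[X]) :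
    ∃ (b : A) (p' : A[X]), b ≠ 0 ∧ aeval y p' = algebraMap K L (b : K) * aeval y p := by
  obtain ⟨b, hbM, hb⟩ := IsLocalization.integerNormalization_spec (nonZeroDivisors A) p
  refine ⟨b, IsLocalization.integerNormalization (nonZeroDivisors A) p,
    nonZeroDivisors.ne_zero hbM, ?_⟩
  rw [← aeval_map_algebraMap K, hb]
  have h2 : ((b : A) • p : K[X]) = C ((b : A) : K) * p := by
    rw [← smul_eq_C_mul]
    rfl
  rw [h2, map_mul, aeval_C]

theorem isCoord_gen {K F : Type*} [Field K] [Field F] [Algebra K F] (A : ValuationSubring K)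
    (x : F) (hx : Transcendental K x) : IsCoord A (AdjoinSimple.gen K x) := by
  refine ⟨?_, ?_⟩
  · intro h
    apply hx
    have h1 : IsAlgebraic K (AdjoinSimple.gen K x) :=
      h.extendScalars (S := K) Subtype.val_injective
    have h2 := h1.algebraMap (A := F)
    rwa [AdjoinSimple.algebraMap_gen] at h2
  · apply IsFractionRing.of_field
    intro z
    obtain ⟨r, s, rfl⟩ := coord_exists_div x z
    obtain ⟨b, r', hb, hr⟩ := coord_exists_smul A (AdjoinSimple.gen K x) r
    obtain ⟨c, s', hc, hs⟩ := coord_exists_smul A (AdjoinSimple.gen K x) s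
    have hb' : algebraMap K K⟮x⟯ (b : K) ≠ 0 := by
      rw [Ne, map_eq_zero]
      exact fun h => hb (Subtype.ext h)
    have hc' : algebraMap K K⟮x⟯ (c : K) ≠ 0 := by
      rw [Ne, map_eq_zero]
      exact fun h => hc (Subtype.ext h)
    refine ⟨⟨aeval (AdjoinSimple.gen K x) (C c * r'), aeval_mem_adjoin_singleton A _⟩,
      ⟨aeval (AdjoinSimple.gen K x) (C b * s'), aeval_mem_adjoin_singleton A _⟩, ?_⟩
    show _ = aeval (AdjoinSimple.gen K x) (C c * r') / aeval (AdjoinSimple.gen K x) (C b * s')
    have hCc : aeval (AdjoinSimple.gen K x) (C c : A[X]) = algebraMap K K⟮x⟯ (c : K) := by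
      rw [aeval_C]; rfl
    have hCb : aeval (AdjoinSimple.gen K x) (C b : A[X]) = algebraMap K K⟮x⟯ (b : K) := by
      rw [aeval_C]; rfl
    rw [map_mul, map_mul, hr, hs, hCc, hCb]
    field_simp

end Fermat.Agent.KLB.Mod
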