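import Fermat.Agent.S28.Export.Good

/-!
# KL-B, concrete layer: the Gauss valuation ring of a field embedded in `K((q))`

To keep instance synthesis fast, the nodes of the concrete layer are stated for abstract fields
together with an embedding `ι : F →ₐ[K] K((q))`.
-/

set_option autoImplicit false

namespace Fermat.Agent.KLB.Mod

open ModularCurve Fermat.Agent.S28.Export

variable {K F : Type*} [Field K] [Field F] [Algebra K F] (ι : F →ₐ[K] LaurentSeries K)
  (A : ValuationSubring K)

/-- `F` (embedded by `ι`) is Gauss-good. -/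
def GoodI : Prop := ∀ f : F, f ≠ 0 → ∃ c : K, c ≠ 0 ∧ ∃ g, g ≠ 0 ∧ Red A (c • ι f) g

variable {ι A}

/-- The Gauss valuation ring of `F`. -/
def gaussVS (h : GoodI ι A) : ValuationSubring F where
  carrier := {f | ∃ g, Red A (ι f) g}
  mul_mem' := by
    rintro a b ⟨g, hg⟩ ⟨g', hg'⟩
    exact ⟨g * g', by simpa using hg.mul hg'⟩
  one_mem' := ⟨1, by simpa using red_one⟩
  add_mem' := by
    rintro a b ⟨g, hg⟩ ⟨g', hg'⟩
    exact ⟨g + g', by simpa using hg.add hg'⟩
  zero_mem' := ⟨0, by simpa using red_zero⟩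
  neg_mem' := by
    rintro a ⟨g, hg⟩
    exact ⟨-g, by simpa using hg.neg⟩
  mem_or_inv_mem' := by
    intro f
    by_cases hf : f = 0
    · left; subst hf; exact ⟨0, by simpa using red_zero⟩
    · obtain ⟨c, hc, g, hg, hr⟩ := h f hf
      rcases red_or_red_inv hc hg hr with ⟨g', h'⟩ | ⟨g', h'⟩
      · exact Or.inl ⟨g', h'⟩
      · exact Or.inr ⟨g', by simpa using h'⟩

theorem mem_gaussVS_iff (h : GoodI ι A) (f : F) : f ∈ gaussVS h ↔ ∃ g, Red A (ι f) g := Iff.rfl

/-- an element with nonzero reduction is a unit of the Gauss ring. -/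
theorem inv_mem_gaussVS (h : GoodI ι A) {f : F} {g : LaurentSeries (IsLocalRing.ResidueField A)}
    (hg : Red A (ι f) g) (hg0 : g ≠ 0) : f⁻¹ ∈ gaussVS h :=
  ⟨g⁻¹, by simpa using hg.inv hg0⟩

/-- an element which reduces to zero is not a unit of the Gauss ring. -/
theorem valuation_lt_one_of_red_zero (h : GoodI ι A) {f : F} (hf : Red A (ι f) 0) :
    (gaussVS h).valuation f < 1 := by
  by_cases hf0 : f = 0
  · subst hf0; simp
  rw [← not_le]
  intro hle
  have h1 : (gaussVS h).valuation f⁻¹ ≤ 1 := by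
    rw [map_inv₀]
    exact inv_le_one_of_one_le₀ hle
  rw [ValuationSubring.valuation_le_one_iff] at h1
  obtain ⟨g, hg⟩ := h1
  have h2 := hf.mul hg
  rw [← map_mul, mul_inv_cancel₀ hf0, zero_mul] at h2
  have h3 : Red A (ι (1 : F)) 1 := by simpa using red_one
  exact zero_ne_one (h2.unique h3)

/-- goodness from an inclusion into a good subfield of `K((q))`. -/
theorem goodI_of_le {E : IntermediateField K (LaurentSeries K)} (hE : IsGood A E)
    (hF : ∀ f : F, ι f ∈ E) : GoodI ι A := fun f hf =>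
  hE (ι f) (hF f) (by simpa using hf)

end Fermat.Agent.KLB.Mod
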