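import Fermat.Agent.KLB.Mod.GaussLocAbs
import Fermat.Agent.KLB.Mod.GaussVS
import Fermat.Agent.S28.Export.Steps

/-!
# KL-B, concrete layer, node GAUSSLOC
The restriction to `L = K(x)` of the Gauss ring of `F` is the localisation of `A[x]` at `π`.
-/

set_option autoImplicit false

namespace Fermat.Agent.KLB.Mod

open Polynomial ModularCurve Fermat.Agent.S28.Export

variable {K L F : Type*} [Field K] [Field L] [Field F] [Algebra K L] [Algebra L F] [Algebra K F]
  [IsScalarTower K L F] {ι : F →ₐ[K] LaurentSeries K} {A : ValuationSubring K}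

/-- a series with transcendental reduction is transcendental. -/
theorem transcendental_of_rho (t : LaurentSeries A) (ht : Function.Injective (evalT (rho A t)))
    (x : F) (hxt : ι x = iota A t) : Transcendental K x := by
  rw [transcendental_iff]
  intro p hp
  by_contra hp0
  obtain ⟨c, p₀, hc, hpp, hp₀⟩ := exists_primitive (O := A) p hp0
  have h1 : aeval (ι x) p = 0 := by rw [Polynomial.aeval_algHom_apply, hp, map_zero]
  rw [hxt, ← evalT_eq_aeval, hpp, map_mul, evalT_C, ← iota_evalT] at h1
  have h2 : iota A (evalT t p₀) ≠ 0 := (red_evalT t p₀).ne_zero (evalT_rho_ne_zero t ht hp₀)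
  have h3 : (HahnSeries.C c : LaurentSeries K) ≠ 0 := by
    intro h0
    apply hc
    have := congrArg (fun z => HahnSeries.coeff z 0) h0
    simpa using this
  exact mul_ne_zero h3 h2 h1

/-- the key identity: the expansion of `p(x)`, `p ∈ A[X]`, is `p(t)`. -/
theorem gaussLoc_key (t : LaurentSeries A) (x : L) (hxt : ι (algebraMap L F x) = iota A t)
    (p : A[X]) : ι (algebraMap L F (aeval x p)) = iota A (evalT t p) := by
  have h : (ι : F →+* LaurentSeries K).comp
      ((algebraMap L F).comp ((aeval x : A[X] →ₐ[A] L) : A[X] →+* L)) =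
      (iota A).comp (evalT t) := by
    refine Polynomial.ringHom_ext (fun a => ?_) ?_
    · simp only [RingHom.comp_apply, RingHom.coe_coe, aeval_C, evalT_C]
      have e1 : algebraMap L F (algebraMap A L a) = algebraMap K F (a : K) :=
        (IsScalarTower.algebraMap_apply K L F (a : K)).symm
      rw [e1, AlgHom.commutes, algebraMap_laurentSeries_eq_single]
      exact (coeffMap_single A.subtype 0 a).symm
    · simp only [RingHom.comp_apply, RingHom.coe_coe, aeval_X, evalT_X]
      exact hxt
  exact RingHom.congr_fun h p

theorem gaussLoc_map_residue_ne_zero [IsDiscreteValuationRing A] {π : A} (hπ : Irreducible π)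
    {p : A[X]} (hp : ¬ C π ∣ p) : p.map (IsLocalRing.residue A) ≠ 0 := by
  intro h0
  apply hp
  rw [Polynomial.C_dvd_iff_dvd_coeff]
  intro i
  have h1 : IsLocalRing.residue A (p.coeff i) = 0 := by
    rw [← Polynomial.coeff_map, h0, Polynomial.coeff_zero]
  rw [IsLocalRing.residue_eq_zero_iff, hπ.maximalIdeal_eq, Ideal.mem_span_singleton] at h1
  exact h1

theorem isLocSub_gaussVS [IsDiscreteValuationRing A] (hgood : GoodI ι A)
    (t : LaurentSeries A) (ht : Function.Injective (evalT (rho A t)))
    (x : L) (hxt : ι (algebraMap L F x) = iota A t) {π : A} (hπ : Irreducible π)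
    (hx : IsCoord A x) :
    IsLocSub (ndvd (hx.prime hπ)) ((gaussVS hgood).toSubring.comap (algebraMap L F)) := by
  refine isLocSub_of_gauss hx hπ (gaussVS hgood) ?_ ?_ ?_
  · intro p
    exact ⟨_, by rw [gaussLoc_key t x hxt p]; exact red_evalT t p⟩
  · intro p hp
    have h1 : Red A (ι (algebraMap L F (aeval x p)))
        (evalT (rho A t) (p.map (IsLocalRing.residue A))) := by
      rw [gaussLoc_key t x hxt p]
      exact red_evalT t p
    exact inv_mem_gaussVS hgood h1 (evalT_rho_ne_zero t ht (gaussLoc_map_residue_ne_zero hπ hp))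
  · intro hmem
    have h1 : Red A (ι (algebraMap L F (algebraMap A L π))) 0 := by
      have h2 := red_evalT t (C π)
      rw [← gaussLoc_key t x hxt (C π), aeval_C, Polynomial.map_C] at h2
      have h3 : IsLocalRing.residue A π = 0 := by
        rw [IsLocalRing.residue_eq_zero_iff, hπ.maximalIdeal_eq]
        exact Ideal.mem_span_singleton_self π
      rwa [h3, map_zero, map_zero] at h2
    have h4 := valuation_lt_one_of_red_zero hgood h1
    have h5 : (gaussVS hgood).valuation (algebraMap L F (algebraMap A L π))⁻¹ ≤ 1 :=
      (ValuationSubring.valuation_le_one_iff _ _).mpr hmem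
    have h6 : algebraMap L F (algebraMap A L π) ≠ 0 := by
      have e1 : algebraMap L F (algebraMap A L π) = algebraMap K F (π : K) :=
        (IsScalarTower.algebraMap_apply K L F (π : K)).symm
      rw [e1, Ne, map_eq_zero]
      exact fun h => hπ.ne_zero (Subtype.ext h)
    have h7 : (gaussVS hgood).valuation (algebraMap L F (algebraMap A L π)) *
        (gaussVS hgood).valuation (algebraMap L F (algebraMap A L π))⁻¹ = 1 := by
      rw [← map_mul, mul_inv_cancel₀ h6, map_one]
    have h8 := mul_lt_one_of_lt_of_le h4 h5
    exact absurd h7 h8.ne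

end Fermat.Agent.KLB.Mod
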