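import Mathlib
import Fermat.Prelude.Def_FLTPrelim_Ramification

/-!
# KL-B, concrete layer, node UNITS
Small facts on a valuation subring lying over the prime `ℓ`.
-/

set_option autoImplicit false

namespace Fermat.Agent.KLB.Mod

open Polynomial

variable {K : Type*} [Field K] (A : ValuationSubring K) {ℓ : ℕ} [Fact ℓ.Prime]

omit [Fact ℓ.Prime] in
/-- `ℓ` lies in the maximal ideal of `A`. -/
theorem natCast_mem_maximalIdeal (hℓ : A.LiesOverPrime ℓ) :
    (ℓ : A) ∈ IsLocalRing.maximalIdeal A := by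
  obtain ⟨ha, hm⟩ := ValuationSubring.mem_nonunits_iff_exists_mem_maximalIdeal.1 hℓ
  have : (⟨(ℓ : K), ha⟩ : A) = (ℓ : A) := Subtype.ext (by simp)
  rwa [this] at hm

theorem isUnit_natCast (hℓ : A.LiesOverPrime ℓ) {n : ℕ} (hn : ¬ ℓ ∣ n) : IsUnit (n : A) := by
  by_contra hu
  have hnm : (n : A) ∈ IsLocalRing.maximalIdeal A := (IsLocalRing.mem_maximalIdeal _).2 hu
  have hℓm := natCast_mem_maximalIdeal A hℓ
  have hcop : IsCoprime (ℓ : ℤ) (n : ℤ) :=
    Nat.isCoprime_iff_coprime.2 ((Nat.Prime.coprime_iff_not_dvd Fact.out).2 hn)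
  obtain ⟨a, b, hab⟩ := hcop
  have h1 : (a : A) * (ℓ : A) + (b : A) * (n : A) = 1 := by
    have := congrArg (Int.cast : ℤ → A) hab
    push_cast at this
    exact this
  have : (1 : A) ∈ IsLocalRing.maximalIdeal A := by
    rw [← h1]
    exact Ideal.add_mem _ (Ideal.mul_mem_left _ _ hℓm) (Ideal.mul_mem_left _ _ hnm)
  exact (Ideal.ne_top_iff_one _).1 (IsLocalRing.maximalIdeal.isMaximal A).ne_top this

theorem exists_isPrimitiveRoot {n : ℕ} (hn : n ≠ 0) {ζ : K} (hζ : IsPrimitiveRoot ζ n) :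
    ∃ ζ' : A, IsPrimitiveRoot ζ' n := by
  have hmem : ζ ∈ A := by
    rcases A.mem_or_inv_mem ζ with h | h
    · exact h
    · have h1 : ζ = (ζ⁻¹) ^ (n - 1) := by
        have hζ0 : ζ ≠ 0 := hζ.ne_zero hn
        have h2 : ζ ^ (n - 1) * ζ = 1 := by
          rw [← pow_succ, Nat.sub_add_cancel (Nat.pos_of_ne_zero hn), hζ.pow_eq_one]
        rw [inv_pow]
        exact eq_inv_of_mul_eq_one_right h2
      rw [h1]
      exact pow_mem h _
  refine ⟨⟨ζ, hmem⟩, ?_⟩
  exact IsPrimitiveRoot.of_map_of_injective (f := A.subtype) hζ Subtype.val_injective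

theorem squarefree_map_residue (hℓ : A.LiesOverPrime ℓ) (g : ℤ[X])
    (hg : (g.map (Int.castRingHom (ZMod ℓ))).Separable) :
    Squarefree ((g.map (Int.castRingHom A)).map (IsLocalRing.residue A)) := by
  have hℓ0 : ((ℓ : ℕ) : IsLocalRing.ResidueField A) = 0 := by
    have h1 : IsLocalRing.residue A (ℓ : A) = 0 := by
      rw [IsLocalRing.residue_eq_zero_iff]
      exact natCast_mem_maximalIdeal A hℓ
    rw [map_natCast] at h1
    exact h1
  have : CharP (IsLocalRing.ResidueField A) ℓ :=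
    (CharP.charP_iff_prime_eq_zero (Fact.out : ℓ.Prime)).mpr hℓ0
  have he : (g.map (Int.castRingHom A)).map (IsLocalRing.residue A) =
      (g.map (Int.castRingHom (ZMod ℓ))).map (ZMod.castHom (dvd_refl ℓ)
        (IsLocalRing.ResidueField A)) := by
    rw [Polynomial.map_map, Polynomial.map_map]
    congr 1
    exact RingHom.ext_int _ _
  rw [he]
  exact (hg.map).squarefree

end Fermat.Agent.KLB.Mod
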