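import Fermat.Agent.KLB.Kum.Root
import Fermat.Agent.S28.Export.Unique

/-!
# KL-B, concrete layer, node VERT
`F / L` is unramified at the Gauss valuation, for `K(j) ⊆ L ⊆ F ⊆ B = K(j, u)`.
-/

set_option autoImplicit false
set_option linter.unusedSectionVars false

namespace Fermat.Agent.KLB.Mod

open Polynomial ModularCurve Fermat.Agent.S28 Fermat.Agent.S28.Export

open Fermat.Agent.S18.Vert (chiS uS zlTo chiS_monic chiS_eval isUnit_derivative)

section vertAux

variable {K L B : Type*} [Field K] [CharZero K] [Field L] [Field B]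
  [Algebra K L] [Algebra L B] [Algebra K B] [IsScalarTower K L B]
  (ι : B →ₐ[K] LaurentSeries K) (A : ValuationSubring K)

/-- `c ↦ c(j)`, from `A[Y]` to `L`. -/
noncomputable def vertPhi (jL : L) : A[X] →+* L :=
  Polynomial.eval₂RingHom ((algebraMap K L).comp A.subtype) jL

theorem vertPhi_eq (jL : L) (c : A[X]) : vertPhi A jL c = aeval jL (c.map A.subtype) := by
  rw [vertPhi, coe_eval₂RingHom, aeval_def, eval₂_map]

theorem vert_iota_aeval (jL : L) (hj : ι (algebraMap L B jL) = jqModC K) (p : K[X]) :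
    ι (algebraMap L B (aeval jL p)) = aeval (jqModC K) p := by
  rw [← hj, ← aeval_algebraMap_apply, ← aeval_algHom_apply]

theorem vert_iota_phi (jL : L) (hj : ι (algebraMap L B jL) = jqModC K) (c : A[X]) :
    ι (algebraMap L B (vertPhi A jL c)) = iota A (evalT (jqModC A) c) := by
  rw [iota_evalT, iota_jqModC, evalT_eq_aeval, vertPhi_eq, vert_iota_aeval ι jL hj]

/-- `K(j) ⊆ L`. -/
theorem vert_exists_lift (jL : L) (hj : ι (algebraMap L B jL) = jqModC K)
    {a : LaurentSeries K} (ha : a ∈ jK K) : ∃ a' : L, ι (algebraMap L B a') = a := by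
  rw [IntermediateField.mem_adjoin_simple_iff] at ha
  obtain ⟨p, q, rfl⟩ := ha
  refine ⟨aeval jL p / aeval jL q, ?_⟩
  rw [map_div₀, map_div₀, vert_iota_aeval ι jL hj, vert_iota_aeval ι jL hj]

/-- An expansion in `K((q))` with coefficients in `K(j)` descends to `B`. -/
theorem vert_expand (jL : L) (hj : ι (algebraMap L B jL) = jqModC K) (u y : B) (n : ℕ)
    (a : ℕ → LaurentSeries K) (ha : ∀ i, a i ∈ jK K)
    (hy : ι y = ∑ i ∈ Finset.range n, a i * ι u ^ i) :
    ∃ a' : ℕ → L, (∀ i, ι (algebraMap L B (a' i)) = a i) ∧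
      y = ∑ i ∈ Finset.range n, algebraMap L B (a' i) * u ^ i := by
  choose a' ha' using fun i => vert_exists_lift ι jL hj (ha i)
  refine ⟨a', ha', ι.toRingHom.injective ?_⟩
  change ι y = ι _
  rw [hy, map_sum]
  refine Finset.sum_congr rfl fun i _ => ?_
  rw [map_mul, map_pow, ha']

variable {N ℓ : ℕ} [Fact ℓ.Prime] (U : UData N ℓ) (hℓ : A.LiesOverPrime ℓ)

theorem vert_iota_aeval_map (jL : L) (hj : ι (algebraMap L B jL) = jqModC K) (u : B)
    (hu : ι u = uK A U hℓ) (Q : A[X][X]) :
    ι (aeval u (Q.map (vertPhi A jL))) =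
      iota A (Q.eval₂ (evalJ A) (uS U (zlTo A hℓ))) := by
  rw [aeval_def, eval₂_map, hom_eval₂ _ _ (iota A)]
  have h := hom_eval₂ Q ((algebraMap L B).comp (vertPhi A jL)) (ι : B →+* LaurentSeries K) u
  have h1 : (ι : B →+* LaurentSeries K).comp ((algebraMap L B).comp (vertPhi A jL)) =
      (iota A).comp (evalJ A) := RingHom.ext fun c => vert_iota_phi ι A jL hj c
  rw [h1] at h
  have h2 : (ι : B →+* LaurentSeries K) u = iota A (uS U (zlTo A hℓ)) := hu
  rw [h2] at h
  exact h

end vertAux

theorem unr_of_udata {K L F B : Type*} [Field K] [CharZero K] [Field L] [Field F] [Field B]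
    [Algebra K L] [Algebra L F] [Algebra F B] [Algebra L B] [Algebra K B] [IsScalarTower L F B]
    [IsScalarTower K L B] [FiniteDimensional L F] [FiniteDimensional F B]
    (ι : B →ₐ[K] LaurentSeries K) (A : ValuationSubring K)
    {N ℓ : ℕ} [Fact ℓ.Prime] (U : UData N ℓ) (hℓ : A.LiesOverPrime ℓ)
    (hB : ∀ y : B, ι y ∈ bigK A U hℓ)
    (jL : L) (hj : ι (algebraMap L B jL) = jqModC K)
    (u : B) (hu : ι u = uK A U hℓ)
    (Og : Subring L) (hOg : ∀ a : L, a ∈ Og ↔ ∃ g, Red A (ι (algebraMap L B a)) g) :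
    Unr Og L F := by
  have : FiniteDimensional L B := FiniteDimensional.trans L F B
  have : CharZero L := charZero_of_injective_algebraMap (algebraMap K L).injective
  have hinj : Function.Injective ι := ι.toRingHom.injective
  have hmemOg : ∀ c : A[X], vertPhi A jL c ∈ Og := fun c =>
    (hOg _).2 ⟨_, by rw [vert_iota_phi ι A jL hj]; exact red_iota _⟩
  set P : L[X] := (chiS U (zlTo A hℓ)).map (vertPhi A jL) with hPdef
  have hP : P.Monic := (chiS_monic U _).map _
  have hPc : ∀ i, IsIntegral Og (P.coeff i) := by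
    intro i
    rw [hPdef, coeff_map]
    exact isIntegral_algebraMap (x := (⟨_, hmemOg _⟩ : Og))
  have hroot : aeval u P = 0 := by
    apply hinj
    rw [hPdef, vert_iota_aeval_map ι A U hℓ jL hj u hu, chiS_eval, map_zero, map_zero]
  have hdeg : P.natDegree ≠ 0 := by
    intro h0
    rw [Polynomial.Monic.natDegree_eq_zero hP] at h0
    rw [h0, map_one] at hroot
    exact one_ne_zero hroot
  have huint : IsIntegral Og u := by
    refine IsIntegral.of_aeval_monic_of_isIntegral_coeff (p := P.map (algebraMap L B))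
      (hP.map _) (by rwa [hP.natDegree_map]) ?_ ?_
    · rw [eval_map_algebraMap, hroot]
      exact isIntegral_zero
    · intro i
      rw [coeff_map]
      exact (hPc i).algebraMap
  have hC1 : ∀ y : B, (∃ g, Red A (ι y) g) → IsIntegral Og y := by
    rintro y ⟨g, hg⟩
    obtain ⟨a, ab, ha, hab, hya, -⟩ := exists_coeffs_of_red A U hℓ (hB y) hg
    rw [← hu] at hya
    obtain ⟨a', ha', hy⟩ := vert_expand ι jL hj u y U.n a ha hya
    rw [hy]
    refine IsIntegral.sum _ fun i hi => IsIntegral.mul ?_ (huint.pow i)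
    have hmem : a' i ∈ Og := (hOg _).2 ⟨ab i, by rw [ha' i]; exact hab i (Finset.mem_range.1 hi)⟩
    exact isIntegral_algebraMap (x := (⟨a' i, hmem⟩ : Og))
  obtain ⟨v', hv'⟩ := (isUnit_derivative U (zlTo A hℓ)).exists_right_inv
  have hmul : ι (aeval u (derivative P)) * iota A v' = 1 := by
    rw [hPdef, derivative_map, vert_iota_aeval_map ι A U hℓ jL hj u hu, ← map_mul, hv', map_one]
  have hder0 : aeval u (derivative P) ≠ 0 := by
    intro h0
    rw [h0, map_zero, zero_mul] at hmul
    exact zero_ne_one hmul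
  have hder : IsIntegral Og (aeval u (derivative P))⁻¹ := by
    apply hC1
    refine ⟨rho A v', ?_⟩
    rw [map_inv₀, inv_eq_of_mul_eq_one_right hmul]
    exact red_iota v'
  have hgen : Algebra.adjoin L {u} = ⊤ := by
    rw [eq_top_iff]
    intro y _
    obtain ⟨a, ha, hya⟩ := span_bigK A U hℓ (ι y) (hB y)
    rw [← hu] at hya
    obtain ⟨a', -, hy⟩ := vert_expand ι jL hj u y U.n a ha hya
    rw [hy]
    exact sum_mem fun i _ => mul_mem (Subalgebra.algebraMap_mem _ _)
      (pow_mem (Algebra.self_mem_adjoin_singleton L u) i)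
  have hLB : Unr Og L B := Unr.of_root u hgen P hP hPc hroot hder0 hder
  exact Unr.bot hLB

end Fermat.Agent.KLB.Mod
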