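import Fermat.Agent.KLB.App.Final
import Fermat.Agent.KLB.Mod.GaussLoc
import Fermat.Agent.KLB.Mod.Vert
import Fermat.Agent.KLB.Mod.Const
import Fermat.Agent.KLB.Mod.Units

/-!
# KL-B, concrete layer: the key lemma over a discretely valued field `(K, A)`, abstract fields
embedded in `K((q))`.
-/

set_option autoImplicit false

namespace Fermat.Agent.KLB.Mod

open Polynomial ModularCurve Fermat.Agent.S28 Fermat.Agent.S28.Export Fermat.Agent.S18.Descent

theorem core_abs {K L F E B : Type*} [Field K] [CharZero K] [Field L] [Field F] [Field E] [Field B]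
    [Algebra K L] [Algebra L F] [Algebra K F] [IsScalarTower K L F]
    [Algebra F E] [Algebra L E] [Algebra K E] [IsScalarTower L F E] [IsScalarTower K L E]
    [IsScalarTower K F E]
    [Algebra F B] [Algebra L B] [Algebra K B] [IsScalarTower L F B] [IsScalarTower K L B]
    [IsScalarTower K F B]
    [FiniteDimensional L F] [FiniteDimensional F E] [FiniteDimensional F B]
    (ιE : E →ₐ[K] LaurentSeries K) (ιB : B →ₐ[K] LaurentSeries K)
    (A : ValuationSubring K) [IsDiscreteValuationRing A]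
    {N ℓ : ℕ} [Fact ℓ.Prime] (U : UData N ℓ) (hℓ : A.LiesOverPrime ℓ)
    (hB : ∀ y : B, ιB y ∈ bigK A U hℓ)
    (x : L) (hx : IsCoord A x)
    (t : LaurentSeries A) (ht : Function.Injective (evalT (rho A t)))
    (hxt : ιB (algebraMap L B x) = iota A t)
    (jL : L) (hj : ιB (algebraMap L B jL) = jqModC K)
    (u : B) (hu : ιB u = uK A U hℓ)
    (g₁ g₂ : ℤ[X]) (sep₁ : (g₁.map (Int.castRingHom (ZMod ℓ))).Separable)
    (sep₂ : (g₂.map (Int.castRingHom (ZMod ℓ))).Separable)
    (hU₁ : UnramOutsideVS K (algebraMap L F x) (g₁.map (Int.castRingHom K)))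
    (hU₂ : UnramOutsideVS K (algebraMap L F x)⁻¹ (g₂.map (Int.castRingHom K)))
    (n : ℕ) (hn : ¬ ℓ ∣ n) (ζ : K) (hζ : IsPrimitiveRoot ζ n)
    (W : E) (hgen : Algebra.adjoin F {W} = ⊤) (h : F) (hW : W ^ n = algebraMap F E h)
    (hdiv : DivisibleDivVS K n h) (hred : Red A (ιB (algebraMap F B h)) 1) :
    W ∈ (algebraMap F E).range := by
  have hn0 : n ≠ 0 := by rintro rfl; exact hn (dvd_zero _)
  obtain ⟨π, hπ⟩ := IsDiscreteValuationRing.exists_irreducible A
  -- the embedding of `F`
  let ιF : F →ₐ[K] LaurentSeries K := ιB.comp (IsScalarTower.toAlgHom K F B)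
  have hιF : ∀ f : F, ιF f = ιB (algebraMap F B f) := fun f => rfl
  have hgood : GoodI ιF A := goodI_of_le (isGood_bigK A U hℓ) (fun f => hB _)
  have hLB : ∀ a : L, ιF (algebraMap L F a) = ιB (algebraMap L B a) := fun a => by
    rw [hιF, ← IsScalarTower.algebraMap_apply]
  have hOg := isLocSub_gaussVS hgood t ht x ((hLB x).trans hxt) hπ hx
  have hv : Unr ((gaussVS hgood).toSubring.comap (algebraMap L F)) L F :=
    unr_of_udata ιB A U hℓ hB jL hj u hu _ (fun a => by
      rw [Subring.mem_comap, ValuationSubring.mem_toSubring, mem_gaussVS_iff, hLB])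
  obtain ⟨ζ', hζ'⟩ := exists_isPrimitiveRoot A hn0 hζ
  have hmap : ∀ g : ℤ[X], (g.map (Int.castRingHom A)).map (algebraMap A K) =
      g.map (Int.castRingHom K) := fun g => by
    rw [Polynomial.map_map]
    congr 1
  refine kummer_final (K := K) hx hπ ?_ hOg hv (g₁.map (Int.castRingHom A))
    (g₂.map (Int.castRingHom A)) (squarefree_map_residue A hℓ g₁ sep₁)
    (squarefree_map_residue A hℓ g₂ sep₂) (by rw [hmap]; exact hU₁) (by rw [hmap]; exact hU₂)
    n (isUnit_natCast A hℓ hn) ζ' hζ' W hgen h hW hdiv (gaussVS hgood) rfl ?_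
  · -- no new constants
    intro y hy
    obtain ⟨a, ha⟩ := exists_eq_algebraMap_of_isIntegral A (ιE y) (by
      obtain ⟨p, hp, hpy⟩ := hy
      refine ⟨p, hp, ?_⟩
      have h1 := congrArg (ιE : E →+* LaurentSeries K) hpy
      rw [map_zero, Polynomial.hom_eval₂] at h1
      have h2 : (ιE : E →+* LaurentSeries K).comp (algebraMap A E) =
          (algebraMap K (LaurentSeries K)).comp A.subtype := by
        ext1 c
        exact ιE.commutes (c : K)
      rw [h2] at h1
      exact h1)
    refine ⟨a, ιE.toRingHom.injective ?_⟩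
    rw [AlgHom.toRingHom_eq_coe, RingHom.coe_coe, ha]
    exact ιE.commutes (a : K)
  · -- `h ≡ 1`
    apply valuation_lt_one_of_red_zero
    rw [map_sub, map_one, hιF]
    simpa using hred.sub red_one

end Fermat.Agent.KLB.Mod
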