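import Fermat.Agent.KLB.Mod.Sub
import Fermat.Agent.S18.Base.Coord
import Fermat.Agent.GAL.KLInputs.Field

/-!
# KL-B, concrete layer: the key lemma for `F = FK K M` over a discretely valued field `(K, A)`
-/

set_option autoImplicit false

namespace Fermat.Agent.KLB.Mod

open Polynomial IntermediateField ModularCurve AlgebraicCurve Fermat.Agent.S28
  Fermat.Agent.S28.Export Fermat.Agent.S18 Fermat.Agent.S18.Descent Fermat.Agent.S24.FF

variable {K : Type*} [Field K] [CharZero K] [Algebra ℚ K] (A : ValuationSubring K)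
  [IsDiscreteValuationRing A] {M ℓ : ℕ} [NeZero M] [Fact ℓ.Prime]

theorem kl_of_valued (hℓ : A.LiesOverPrime ℓ) (D : BaseData M ℓ) (U : UData M ℓ)
    [IsFF1 K (FK K M)]
    (hU₁ : UnramOutsideVS K (D.xK K) (D.g₁.map (Int.castRingHom K)))
    (hU₂ : UnramOutsideVS K (D.xK K)⁻¹ (D.g₂.map (Int.castRingHom K)))
    (n : ℕ) (hn : ¬ ℓ ∣ n) (ζ : K) (hζ : IsPrimitiveRoot ζ n)
    (h : FK K M) (hh : h ≠ 0) (hred : Red A (h : LaurentSeries K) 1)
    (hdiv : ∀ w : Place K (FK K M), (n : ℤ) ∣ w.ord h)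
    (W : LaurentSeries K) (hW : W ^ n = h) : W ∈ FK K M := by
  have hxtr := transcendental_xK D K
  have : FiniteDimensional K⟮D.xK K⟯ (FK K M) := IsFF1.finite _ hxtr
  have hjx : jK K M ∈ K⟮D.xK K⟯ := adjoin_jK_le D K (mem_adjoin_simple_self K _)
  refine core_sub (AlgHom.id K (LaurentSeries K)) A U hℓ (FK K M) ?_ (D.xK K)
    (coeffMap (Int.castRingHom A) D.X) ?_ ?_ ⟨jK K M, hjx⟩ ?_ (uK A U hℓ) rfl D.g₁ D.g₂ D.sep₁ D.sep₂
    hU₁ hU₂ n hn ζ hζ W h hW (divisibleDivVS_of_places n h hh hdiv) hred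
  · intro f hf
    exact GAL.KLInputs.le_bigField A U hℓ hf
  · have e : rho A (coeffMap (Int.castRingHom A) D.X) =
        coeffMap (Int.castRingHom (IsLocalRing.ResidueField A)) D.X := by
      rw [rho, coeffMap_coeffMap]
      exact coeffMap_congr (RingHom.ext_int _ _) D.X
    rw [e]
    have htr := Coord.transcendental_coeffMap D.mul_inv D.order_ne
      (Int.castRingHom (IsLocalRing.ResidueField A))
    intro p q hpq
    rw [evalT_eq_aeval, evalT_eq_aeval] at hpq
    exact (transcendental_iff_injective.mp htr) hpq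
  · show ((D.xK K : FK K M) : LaurentSeries K) = _
    rw [Coord.coe_xK, iota, Coord.coeffMap_subtype_castA]
  · show coeffEmb K jq = jqModC K
    exact GAL.KLInputs.coeffEmb_jq

end Fermat.Agent.KLB.Mod
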