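import Mathlib
import Fermat.Agent.GAL.Mult.FormalRoot
import Fermat.Agent.S18.Glue.FF0
import Fermat.Prelude.Def_ModularCurve_LaurentCoeff

/-!
# KL-B, concrete layer, node SERIES
Formal lemmas on Laurent series: roots, orders and leading coefficients under `coeffMap`,
the `q`-adic place.
-/

set_option autoImplicit false

namespace Fermat.Agent.KLB.Mod

open ModularCurve AlgebraicCurve

/-- `n`-th roots of Laurent series whose leading coefficient is an `n`-th power. -/
theorem exists_pow_eq_laurent' {K : Type*} [Field K] [CharZero K] (n : ℕ) (hn : 0 < n)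
    (s : LaurentSeries K) (hs : s ≠ 0) (hord : (n : ℤ) ∣ s.order) (c : K)
    (hc : c ^ n = s.leadingCoeff) : ∃ r : LaurentSeries K, r ^ n = s := by
  obtain ⟨k, hk⟩ := hord
  have ha : s.leadingCoeff ≠ 0 := HahnSeries.leadingCoeff_ne_zero.2 hs
  set u : LaurentSeries K := HahnSeries.single (-s.order) (s.leadingCoeff)⁻¹ * s with hu
  have hu1 : 0 < (u - 1).orderTop := by
    rw [HahnSeries.orderTop_self_sub_one_pos_iff]
    constructor
    · rw [hu, HahnSeries.orderTop_mul, HahnSeries.orderTop_single (inv_ne_zero ha),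
        ← HahnSeries.order_eq_orderTop_of_ne_zero hs, ← WithTop.coe_add]
      simp
    · rw [hu, HahnSeries.leadingCoeff_mul, HahnSeries.leadingCoeff_of_single,
        inv_mul_cancel₀ ha]
  obtain ⟨r, hr⟩ := Fermat.Agent.GAL.Mult.exists_pow_eq_one_add n hn (u - 1) hu1
  refine ⟨HahnSeries.single k c * r, ?_⟩
  rw [mul_pow, hr, HahnSeries.single_pow, hc, add_sub_cancel, hu, ← mul_assoc,
    HahnSeries.single_mul_single, mul_inv_cancel₀ ha, hk]
  simp

theorem order_coeffMap_of_injective {R S : Type*} [CommRing R] [CommRing S] (f : R →+* S)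
    (hf : Function.Injective f) (y : LaurentSeries R) : (coeffMap f y).order = y.order := by
  by_cases hy : y = 0
  · rw [hy, map_zero, HahnSeries.order_zero, HahnSeries.order_zero]
  have hu : (coeffMap f y).coeff y.order ≠ 0 := by
    rw [coeffMap_coeff]
    intro h
    rw [← map_zero f] at h
    exact (HahnSeries.coeff_order_eq_zero (x := y)).not.mpr hy (hf h)
  have h0 : coeffMap f y ≠ 0 := by
    intro h
    rw [h] at hu
    exact hu rfl
  apply le_antisymm (HahnSeries.order_le_of_coeff_ne_zero hu)
  by_contra hlt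
  rw [not_le] at hlt
  apply (HahnSeries.coeff_order_eq_zero (x := coeffMap f y)).not.mpr h0
  rw [coeffMap_coeff, HahnSeries.coeff_eq_zero_of_lt_order hlt, map_zero]

theorem leadingCoeff_coeffMap_of_injective {R S : Type*} [CommRing R] [CommRing S] (f : R →+* S)
    (hf : Function.Injective f) (y : LaurentSeries R) :
    (coeffMap f y).leadingCoeff = f y.leadingCoeff := by
  rw [HahnSeries.leadingCoeff_eq, HahnSeries.leadingCoeff_eq, order_coeffMap_of_injective f hf,
    coeffMap_coeff]

/-- The `q`-adic valuation of a nonzero Laurent series in terms of its order. -/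
theorem valued_eq_exp_neg_order {k : Type*} [Field k] (f : LaurentSeries k) (hf : f ≠ 0) :
    (Valued.v f : WithZero (Multiplicative ℤ)) = WithZero.exp (-f.order) := by
  apply le_antisymm
  · exact (LaurentSeries.valuation_le_iff_coeff_lt_eq_zero k (D := f.order) (f := f)).mpr
      (fun n hn => HahnSeries.coeff_eq_zero_of_lt_order hn)
  · by_contra hlt
    rw [not_le] at hlt
    have h1 : (Valued.v f : WithZero (Multiplicative ℤ)) ≤ WithZero.exp (-(f.order + 1)) := by
      have hv0 : (Valued.v f : WithZero (Multiplicative ℤ)) ≠ 0 :=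
        (Valuation.ne_zero_iff _).mpr hf
      rw [← WithZero.exp_log hv0] at hlt ⊢
      rw [WithZero.exp_lt_exp] at hlt
      rw [WithZero.exp_le_exp]
      omega
    have h2 := (LaurentSeries.valuation_le_iff_coeff_lt_eq_zero k (D := f.order + 1)
      (f := f)).mp h1 f.order (by omega)
    exact (HahnSeries.coeff_order_eq_zero (x := f)).not.mpr hf h2

/-- If `F ⊆ k((q))` contains an element of order `±1`, the `q`-adic order is a place of `F`. -/
theorem exists_place_ord_eq_order {k : Type*} [Field k] (F : IntermediateField k (LaurentSeries k))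
    (hF : ∃ f : F, (f : LaurentSeries k).order = 1 ∨ (f : LaurentSeries k).order = -1) :
    ∃ v : Place k F, ∀ f : F, f ≠ 0 → v.ord f = (f : LaurentSeries k).order := by
  obtain ⟨f₀, hf₀⟩ := hF
  have hf₀0 : f₀ ≠ 0 := by
    rintro rfl
    rcases hf₀ with h | h <;> simp at h
  have hval : ∀ f : F, f ≠ 0 → Fermat.Agent.S18.Glue.qVal F f
      = WithZero.exp (-(f : LaurentSeries k).order) := by
    intro f hf
    rw [Fermat.Agent.S18.Glue.qVal_apply]
    exact valued_eq_exp_neg_order _ (by simpa using hf)
  have hnt : ∃ f : F, f ≠ 0 ∧ Fermat.Agent.S18.Glue.qVal F f < 1 := by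
    rcases hf₀ with h | h
    · refine ⟨f₀, hf₀0, ?_⟩
      rw [hval f₀ hf₀0, h, ← WithZero.exp_zero, WithZero.exp_lt_exp]
      norm_num
    · refine ⟨f₀⁻¹, inv_ne_zero hf₀0, ?_⟩
      rw [map_inv₀, hval f₀ hf₀0, h, ← WithZero.exp_neg, ← WithZero.exp_zero,
        WithZero.exp_lt_exp]
      norm_num
  obtain ⟨v, m, hm, hv⟩ := Fermat.Agent.S24.CL.exists_place_of_valuation (K := k)
    (Fermat.Agent.S18.Glue.qVal F) (Fermat.Agent.S18.Glue.qVal_algebraMap F) hnt
  have key : ∀ f : F, f ≠ 0 → (f : LaurentSeries k).order = (m : ℤ) * v.ord f := by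
    intro f hf
    have h := hv f hf
    rw [hval f hf, WithZero.exp_inj] at h
    omega
  have hm1 : (m : ℤ) = 1 := by
    have h := key f₀ hf₀0
    have hdvd : (m : ℤ) ∣ 1 := by
      rcases hf₀ with h' | h'
      · exact ⟨v.ord f₀, by rw [← h, h']⟩
      · exact ⟨-v.ord f₀, by rw [mul_neg, ← h, h']; norm_num⟩
    exact Int.eq_one_of_dvd_one (by positivity) hdvd
  refine ⟨v, fun f hf => ?_⟩
  rw [key f hf, hm1, one_mul]

end Fermat.Agent.KLB.Mod
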