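import Fermat.Agent.KLB.Mod.Level
import Fermat.Agent.KLB.Mod.Series
import Fermat.Agent.S18.Descent.Main
import Fermat.Agent.S18.Descent.HorizontalBC
import Fermat.Agent.S24.Export.Ramification
import Fermat.Agent.S18.Base.Bases

/-!
# KL-B: the key lemma `KL M A n` from a base coordinate (`BaseData`) and `UData`
-/

set_option autoImplicit false
set_option linter.style.haveILetI false

noncomputable section

namespace Fermat.Agent.KLB.Mod

open Polynomial IntermediateField ModularCurve AlgebraicCurve Fermat.Agent.S28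
  Fermat.Agent.S28.Export Fermat.Agent.S18 Fermat.Agent.S18.Descent Fermat.Agent.S24.FF
  Fermat.Agent.S24

local notation "Qbar" => AlgebraicClosure ℚ

theorem map_castRingHom_ne_zero {ℓ : ℕ} [Fact ℓ.Prime] (g : ℤ[X])
    (hg : (g.map (Int.castRingHom (ZMod ℓ))).Separable) (K : Type*) [Field K] [CharZero K] :
    g.map (Int.castRingHom K) ≠ 0 := by
  have hg0 : g ≠ 0 := by
    rintro rfl
    rw [Polynomial.map_zero] at hg
    exact Polynomial.not_separable_zero hg
  exact (Polynomial.map_ne_zero_iff (RingHom.injective_int (Int.castRingHom K))).mpr hg0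

theorem map_map_castRingHom (g : ℤ[X]) (K₀ : IntermediateField ℚ Qbar) :
    (g.map (Int.castRingHom K₀)).map (algebraMap K₀ Qbar) = g.map (Int.castRingHom Qbar) := by
  rw [Polynomial.map_map]
  congr 1

theorem toBar_xK {M ℓ : ℕ} (D : BaseData M ℓ) (K₀ : IntermediateField ℚ Qbar) :
    toBar (modularFunctionFieldFull M) K₀ (D.xK K₀) =
      ⟨_, coeffEmb_mem_laurentBaseChange Qbar D.mem⟩ :=
  Subtype.ext (coeffMap_coeffEmb' _ _)

/-- horizontal input over a number field, chart `x`. -/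
theorem unramOutsideVS_base₁ {M ℓ : ℕ} [NeZero M] [Fact ℓ.Prime] (D : BaseData M ℓ)
    (K₀ : IntermediateField ℚ Qbar) :
    UnramOutsideVS K₀ (D.xK K₀) (D.g₁.map (Int.castRingHom K₀)) := by
  haveI : IsFF1 Qbar (modularFunctionFieldBar M) := S24.Export.isFF1 M
  haveI : IsFF1 Qbar (laurentBaseChange Qbar (modularFunctionFieldFull M)) := S24.Export.isFF1 M
  haveI : IsFF1 K₀ (laurentBaseChange K₀ (modularFunctionFieldFull M)) := isFF1_modular M K₀
  refine unramOutsideVS_of_bar (D.xK K₀) (transcendental_xK D K₀) _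
    (map_castRingHom_ne_zero D.g₁ D.sep₁ K₀) ?_
  intro c hc v hv
  rw [map_map_castRingHom] at hc
  rw [toBar_xK] at hv ⊢
  exact D.ram₁ v c hc hv

/-- horizontal input over a number field, chart `x⁻¹`. -/
theorem unramOutsideVS_base₂ {M ℓ : ℕ} [NeZero M] [Fact ℓ.Prime] (D : BaseData M ℓ)
    (K₀ : IntermediateField ℚ Qbar) :
    UnramOutsideVS K₀ (D.xK K₀)⁻¹ (D.g₂.map (Int.castRingHom K₀)) := by
  haveI : IsFF1 Qbar (modularFunctionFieldBar M) := S24.Export.isFF1 M
  haveI : IsFF1 Qbar (laurentBaseChange Qbar (modularFunctionFieldFull M)) := S24.Export.isFF1 M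
  haveI : IsFF1 K₀ (laurentBaseChange K₀ (modularFunctionFieldFull M)) := isFF1_modular M K₀
  refine unramOutsideVS_of_bar (D.xK K₀)⁻¹
    (fun h => transcendental_xK D K₀ (IsAlgebraic.inv_iff.mp h)) _
    (map_castRingHom_ne_zero D.g₂ D.sep₂ K₀) ?_
  intro c hc v hv
  rw [map_map_castRingHom] at hc
  rw [map_inv₀, toBar_xK] at hv ⊢
  exact D.ram₂ v c hc hv

/-- the `q`-order of an element of `FN M` whose divisor is divisible by `n` is divisible by `n`. -/
theorem dvd_order_of_forall_dvd_ord {M : ℕ} [NeZero M] (n : ℕ) (H : FN M) (hH : H ≠ 0)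
    (hdvd : ∀ v : Place Qbar (FN M), (n : ℤ) ∣ v.ord H) :
    (n : ℤ) ∣ (H : LaurentSeries Qbar).order := by
  obtain ⟨v, hv⟩ := exists_place_ord_eq_order (modularFunctionFieldBar M) ⟨jF M, Or.inr (by
    rw [Lib.Hauptmodul.Bar.coe_jF, ← Base.coeffMap_mkX_jNum, coeffEmb,
      order_coeffMap_of_injective _ (algebraMap ℚ Qbar).injective,
      order_coeffMap_of_injective _ (RingHom.injective_int _),
      Base.order_mkX _ _ constantCoeff_jNum])⟩
  rw [← hv H hH]
  exact hdvd v

theorem kl_of_base {M ℓ : ℕ} [NeZero M] [Fact ℓ.Prime] (D : BaseData M ℓ)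
    (U : S28.UData M ℓ) (A : ValuationSubring Qbar) (hA : A.LiesOverPrime ℓ) (n : ℕ)
    (hn : ¬ ℓ ∣ n) : GAL.KL M A n := by
  classical
  intro P Q hP hQ hres hres0 hdvd
  have hn0 : n ≠ 0 := by rintro rfl; exact hn (dvd_zero _)
  haveI : Algebra.IsAlgebraic ℚ Qbar := AlgebraicClosure.isAlgebraic ℚ
  haveI : IsFF1 Qbar (modularFunctionFieldBar M) := S24.Export.isFF1 M
  set F₀ := modularFunctionFieldFull M with hF₀
  set H : laurentBaseChange Qbar F₀ :=
    (⟨coeffMap A.subtype P, hP⟩ : laurentBaseChange Qbar F₀) / ⟨coeffMap A.subtype Q, hQ⟩ with hH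
  -- `P`, `Q`, `H` are nonzero
  have hQ0 : coeffMap A.subtype Q ≠ 0 := by
    intro h0
    apply hres0
    have : Q = 0 := coeffMap_injective A.subtype Subtype.val_injective (by rw [h0, map_zero])
    rw [this, map_zero]
  have hP0 : coeffMap A.subtype P ≠ 0 := by
    intro h0
    apply hres0
    have : P = 0 := coeffMap_injective A.subtype Subtype.val_injective (by rw [h0, map_zero])
    rw [← hres, this, map_zero]
  have hHne : H ≠ 0 := by
    rw [hH]
    exact div_ne_zero (fun h => hP0 (congrArg Subtype.val h)) (fun h => hQ0 (congrArg Subtype.val h))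
  have hord : (n : ℤ) ∣ (H : LaurentSeries Qbar).order :=
    dvd_order_of_forall_dvd_ord n H hHne hdvd
  -- an `n`-th root of the leading coefficient and a primitive `n`-th root of unity
  obtain ⟨γ, hγ⟩ := IsAlgClosed.exists_pow_nat_eq (H : LaurentSeries Qbar).leadingCoeff
    (Nat.pos_of_ne_zero hn0)
  haveI : NeZero (n : Qbar) := ⟨Nat.cast_ne_zero.mpr hn0⟩
  obtain ⟨ζ, hζ⟩ := HasEnoughRootsOfUnity.exists_primitiveRoot Qbar n
  -- uniformisers at the support of `H`
  have hfin : {v : Place Qbar (laurentBaseChange Qbar F₀) | v.ord H ≠ 0}.Finite :=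
    finite_ord_ne_zero H
  choose t ht using fun v : Place Qbar (laurentBaseChange Qbar F₀) => exists_ord_eq_one v
  let S : Finset (LaurentSeries Qbar) :=
    insert (coeffMap A.subtype P) (insert (coeffMap A.subtype Q)
      (hfin.toFinset.image fun v => ((t v : laurentBaseChange Qbar F₀) : LaurentSeries Qbar)))
  have hS : ∀ x ∈ S, x ∈ laurentBaseChange Qbar F₀ := by
    intro x hx
    simp only [S, Finset.mem_insert, Finset.mem_image] at hx
    rcases hx with rfl | rfl | ⟨v, -, rfl⟩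
    · exact hP
    · exact hQ
    · exact (t v).2
  obtain ⟨K₀, hK₀fin, -, hc, hdef⟩ := exists_definedOver_finset S hS {γ, ζ} ⊥
  obtain ⟨yP, hyP, hyP'⟩ := hdef (coeffMap A.subtype P) (by simp [S])
  obtain ⟨yQ, hyQ, hyQ'⟩ := hdef (coeffMap A.subtype Q) (by simp [S])
  obtain ⟨P₀, hP₀, hP₀'⟩ := exists_series_restrict A K₀ P yP hyP'
  obtain ⟨Q₀, hQ₀, hQ₀'⟩ := exists_series_restrict A K₀ Q yQ hyQ'
  subst hP₀ hQ₀
  -- the maps
  let φ : K₀ →+* Qbar := algebraMap K₀ Qbar
  let Φ : laurentBaseChange K₀ F₀ →+* laurentBaseChange Qbar F₀ := baseChangeMap F₀ φ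
  have hcomp : ∀ a : K₀, Φ (algebraMap K₀ (laurentBaseChange K₀ F₀) a) =
      algebraMap Qbar (laurentBaseChange Qbar F₀) (φ a) := fun a => baseChangeMap_algebraMap φ a
  have hint : φ.IsIntegral := by
    intro c
    have h1 : IsIntegral ℚ c := (AlgebraicClosure.isAlgebraic ℚ).isAlgebraic c |>.isIntegral
    exact h1.tower_top (A := K₀)
  set h₀ : laurentBaseChange K₀ F₀ :=
    (⟨coeffMap (restrict A K₀).subtype P₀, hyP⟩ : laurentBaseChange K₀ F₀) /
      ⟨coeffMap (restrict A K₀).subtype Q₀, hyQ⟩ with hh₀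
  have hΦh : Φ h₀ = H := by
    rw [hh₀, hH, map_div₀]
    congr 1
    · exact Subtype.ext hyP'
    · exact Subtype.ext hyQ'
  have hh₀ne : h₀ ≠ 0 := by
    intro h0
    apply hHne
    rw [← hΦh, h0, map_zero]
  -- residues
  have hinj := coeffMap_injective (residueMap A K₀) (residueMap_injective A K₀)
  have hresP : ∀ X : LaurentSeries (restrict A K₀),
      coeffMap (residueMap A K₀) (coeffMap (IsLocalRing.residue (restrict A K₀)) X) =
        coeffMap (IsLocalRing.residue A) (coeffMap (restrictHom A K₀) X) := by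
    intro X
    rw [coeffMap_coeffMap, coeffMap_coeffMap, residueMap_comp_residue]
  have hres₀ : coeffMap (IsLocalRing.residue (restrict A K₀)) P₀ =
      coeffMap (IsLocalRing.residue (restrict A K₀)) Q₀ := by
    apply hinj
    rw [hresP, hresP, hP₀', hQ₀', hres]
  have hres0₀ : coeffMap (IsLocalRing.residue (restrict A K₀)) Q₀ ≠ 0 := by
    intro h0
    apply hres0
    rw [← hQ₀', ← hresP, h0, map_zero]
  -- divisibility
  have hdvd₀ : ∀ w : Place K₀ (laurentBaseChange K₀ F₀), (n : ℤ) ∣ w.ord h₀ := by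
    refine dvd_ord_of_forall_dvd_ord φ Φ hcomp hint h₀ n ?_ ?_
    · intro v hv
      rw [hΦh] at hv
      obtain ⟨y, hy, hy'⟩ := hdef ((t v : laurentBaseChange Qbar F₀) : LaurentSeries Qbar) (by
        simp only [S, Finset.mem_insert, Finset.mem_image]
        exact Or.inr (Or.inr ⟨v, hfin.mem_toFinset.mpr hv, rfl⟩))
      refine ⟨⟨y, hy⟩, ?_⟩
      have : Φ ⟨y, hy⟩ = t v := Subtype.ext hy'
      rw [this, ht]
    · intro v
      rw [hΦh]
      exact hdvd v
  -- the root
  have hcoe : coeffMap φ (h₀ : LaurentSeries K₀) = (H : LaurentSeries Qbar) :=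
    congrArg Subtype.val hΦh
  have hφinj : Function.Injective φ := φ.injective
  obtain ⟨W, hW⟩ := exists_pow_eq_laurent' n (Nat.pos_of_ne_zero hn0) (h₀ : LaurentSeries K₀)
    (fun h => hh₀ne (Subtype.ext h))
    (by rw [← order_coeffMap_of_injective φ hφinj, hcoe]; exact hord)
    (⟨γ, hc γ (by simp)⟩ : K₀) (by
      apply hφinj
      rw [← leadingCoeff_coeffMap_of_injective φ hφinj, hcoe, ← hγ, map_pow]
      rfl)
  -- the key lemma over `K₀`
  haveI : IsDiscreteValuationRing (restrict A K₀) :=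
    isDiscreteValuationRing_restrict K₀ (Fact.out : ℓ.Prime).ne_zero hA
  haveI : IsFF1 K₀ (FK K₀ M) := isFF1_modular M K₀
  have hζ₀ : IsPrimitiveRoot (⟨ζ, hc ζ (by simp)⟩ : K₀) n :=
    IsPrimitiveRoot.of_map_of_injective (f := φ) (ζ := (⟨ζ, hc ζ (by simp)⟩ : K₀)) hζ hφinj
  have hQ₀ne : coeffMap (restrict A K₀).subtype Q₀ ≠ 0 := by
    intro h0
    apply hQ0
    rw [← hyQ', h0, map_zero]
  have hred : Red (restrict A K₀) (h₀ : LaurentSeries K₀) 1 := by
    refine ⟨P₀, Q₀, hres0₀, ?_, ?_⟩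
    · show coeffMap (restrict A K₀).subtype P₀ / coeffMap (restrict A K₀).subtype Q₀ *
        coeffMap (restrict A K₀).subtype Q₀ = _
      rw [div_mul_cancel₀ _ hQ₀ne]
    · rw [one_mul]; exact hres₀.symm
  have hWF : W ∈ FK K₀ M :=
    kl_of_valued (restrict A K₀) (restrict_liesOverPrime K₀ hA) D U (unramOutsideVS_base₁ D K₀)
      (unramOutsideVS_base₂ D K₀) n hn _ hζ₀ h₀ hh₀ne hred hdvd₀ W hW
  refine ⟨Φ ⟨W, hWF⟩, ?_⟩
  rw [← map_pow, ← hΦh]
  congr 1
  exact Subtype.ext hW.symm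

end Fermat.Agent.KLB.Mod
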