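import Fermat.Agent.S28.Export.Unique

/-!
# KL-B, concrete layer, node SUBAUX
-/

set_option autoImplicit false

namespace Fermat.Agent.KLB.Mod

open Polynomial IntermediateField ModularCurve Fermat.Agent.S28 Fermat.Agent.S28.Export

section
variable {K Ω : Type*} [Field K] [CharZero K] [Field Ω] [Algebra K Ω]
  (ι : Ω →ₐ[K] LaurentSeries K) (A : ValuationSubring K)
  {N ℓ : ℕ} [Fact ℓ.Prime] (U : UData N ℓ) (hℓ : A.LiesOverPrime ℓ)

/-- `u` is integral over every subfield containing `j`. -/
theorem isIntegral_u (F : IntermediateField K Ω) (j : F) (hj : ι j = jqModC K)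
    (u : Ω) (hu : ι u = uK A U hℓ) : IsIntegral F u := by
  let φ : K[X] →+* F := (aeval j : K[X] →ₐ[K] F).toRingHom
  refine ⟨(chiK A U hℓ).map φ, (Fermat.Agent.S18.Vert.chiS_monic U _).map φ, ?_⟩
  apply (ι : Ω →+* LaurentSeries K).injective
  rw [map_zero, Polynomial.hom_eval₂, Polynomial.eval₂_map]
  have hcomp : ((ι : Ω →+* LaurentSeries K).comp (algebraMap F Ω)).comp φ = evalT (jqModC K) := by
    apply Polynomial.ringHom_ext
    · intro a
      simp only [φ, RingHom.comp_apply, AlgHom.toRingHom_eq_coe, RingHom.coe_coe, aeval_C, evalT_C]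
      rw [← IsScalarTower.algebraMap_apply K F Ω, AlgHom.commutes]
      exact algebraMap_laurentSeries_eq_single K a
    · simp only [φ, RingHom.comp_apply, AlgHom.toRingHom_eq_coe, RingHom.coe_coe, aeval_X, evalT_X]
      exact hj
  rw [hcomp]
  have : (ι : Ω →+* LaurentSeries K) u = uK A U hℓ := hu
  rw [this]
  exact chiK_eval A U hℓ

end

theorem adjoin_gen_eq_top {F Ω : Type*} [Field F] [Field Ω] [Algebra F Ω] (W : Ω)
    (hW : IsIntegral F W) : Algebra.adjoin F {AdjoinSimple.gen F W} = ⊤ := by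
  have := (IntermediateField.adjoin.powerBasis hW).adjoin_gen_eq_top
  rwa [IntermediateField.adjoin.powerBasis_gen] at this

end Fermat.Agent.KLB.Mod
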