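import Fermat.Agent.KLB.Mod.Core
import Fermat.Agent.KLB.Mod.Coord
import Fermat.Agent.KLB.Mod.SubAux

/-!
# KL-B, concrete layer: the key lemma for subfields of a field `Ω` embedded in `K((q))`
-/

set_option autoImplicit false

namespace Fermat.Agent.KLB.Mod

open Polynomial IntermediateField ModularCurve Fermat.Agent.S28 Fermat.Agent.S28.Export
  Fermat.Agent.S18.Descent

variable {K Ω : Type*} [Field K] [CharZero K] [Field Ω] [Algebra K Ω]
  (ι : Ω →ₐ[K] LaurentSeries K) (A : ValuationSubring K)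
  {N ℓ : ℕ} [Fact ℓ.Prime] (U : UData N ℓ) (hℓ : A.LiesOverPrime ℓ)

theorem core_sub [IsDiscreteValuationRing A]
    (F : IntermediateField K Ω) (hF : ∀ f ∈ F, ι f ∈ bigK A U hℓ)
    (x : F) [FiniteDimensional K⟮x⟯ F]
    (t : LaurentSeries A) (ht : Function.Injective (evalT (rho A t))) (hxt : ι x = iota A t)
    (jx : K⟮x⟯) (hj : ι ((jx : F) : Ω) = jqModC K)
    (u : Ω) (hu : ι u = uK A U hℓ)
    (g₁ g₂ : ℤ[X]) (sep₁ : (g₁.map (Int.castRingHom (ZMod ℓ))).Separable)
    (sep₂ : (g₂.map (Int.castRingHom (ZMod ℓ))).Separable)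
    (hU₁ : UnramOutsideVS K x (g₁.map (Int.castRingHom K)))
    (hU₂ : UnramOutsideVS K x⁻¹ (g₂.map (Int.castRingHom K)))
    (n : ℕ) (hn : ¬ ℓ ∣ n) (ζ : K) (hζ : IsPrimitiveRoot ζ n)
    (W : Ω) (h : F) (hW : W ^ n = h)
    (hdiv : DivisibleDivVS K n h) (hred : Red A (ι h) 1) : W ∈ F := by
  have hn0 : n ≠ 0 := by rintro rfl; exact hn (dvd_zero _)
  have hWint : IsIntegral F W := by
    refine IsIntegral.of_pow (Nat.pos_of_ne_zero hn0) ?_
    rw [hW]
    exact isIntegral_algebraMap (R := F) (x := h)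
  have huint : IsIntegral F u := isIntegral_u ι A U hℓ F (jx : F) hj u hu
  have : FiniteDimensional F F⟮W⟯ := IntermediateField.adjoin.finiteDimensional hWint
  have : FiniteDimensional F F⟮u⟯ := IntermediateField.adjoin.finiteDimensional huint
  let ιE : F⟮W⟯ →ₐ[K] LaurentSeries K := ι.comp ((F⟮W⟯).val.restrictScalars K)
  let ιB : F⟮u⟯ →ₐ[K] LaurentSeries K := ι.comp ((F⟮u⟯).val.restrictScalars K)
  have hxtr : Transcendental K x :=
    transcendental_of_rho (ι := ι.comp F.val) t ht x hxt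
  have hB : ∀ y : F⟮u⟯, ιB y ∈ bigK A U hℓ := by
    rintro ⟨y, hy⟩
    show ι y ∈ bigK A U hℓ
    induction hy using IntermediateField.adjoin_induction with
    | mem y hy =>
      rw [Set.mem_singleton_iff] at hy
      rw [hy, hu]
      exact IntermediateField.subset_adjoin _ _ (by simp)
    | algebraMap f => exact hF f f.2
    | add y z _ _ hy hz => rw [map_add]; exact add_mem hy hz
    | inv y _ hy => rw [map_inv₀]; exact inv_mem hy
    | mul y z _ _ hy hz => rw [map_mul]; exact mul_mem hy hz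
  have key := core_abs (L := K⟮x⟯) (F := F) (E := F⟮W⟯) (B := F⟮u⟯) ιE ιB A U hℓ hB
    (AdjoinSimple.gen K x) (isCoord_gen A x hxtr) t ht hxt jx hj (AdjoinSimple.gen F u) hu
    g₁ g₂ sep₁ sep₂ hU₁ hU₂ n hn ζ hζ (AdjoinSimple.gen F W) (adjoin_gen_eq_top W hWint) h
    (Subtype.ext hW) hdiv hred
  obtain ⟨s, hs⟩ := key
  have := congrArg Subtype.val hs
  rw [AdjoinSimple.coe_gen] at this
  rw [← this]
  exact s.2

end Fermat.Agent.KLB.Mod
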